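import Mathlib
import Fermat.Agent.LT.H129.EllParamSpec

/-!
# Row LT, tower T6, leaf T6.14b.L3 `LatOrbitExC129` (helper952)

OFF-MAIN.  `latOrbitExC952 : Fermat.Agent.LT.H129.LatOrbitExC129` (registry row 1166; Spec
`Fermat/Agent/LT/H129/EllParamSpec.lean` of helper129, byte-identical copy).

Proof (the route of the Spec).  `t e(1, ξ) = e(a₁, b₁)`, `a₁ = a - ν b ξ` a unit,
`b₁ = a ξ + b + τ b ξ`; `ξ'' = b₁ / a₁`; `ξ' ∈ B` with `|ξ'' - ξ'| ≤ exp(-n)`;
`B' = (ξ'' - ξ') / N(1, ξ')`, `A = 1 + ν ξ' B'`, `C = B' / νⁿ`;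
`u = a₁ · !![A, -ν^(n+1) B'; C, A + τ B']` has integral entries and unit determinant, and
`t · latMat n ξ = latMat n ξ' · u` is a polynomial identity modulo the three relations
`a₁ ξ'' = b₁`, `B' N(1, ξ') = ξ'' - ξ'`, `C νⁿ = B'`.
-/

set_option autoImplicit false
set_option linter.unusedSectionVars false
set_option linter.style.haveILetI false
set_option linter.unusedSimpArgs false

open scoped Matrix

noncomputable section

namespace Fermat.Agent.LT.T6.H952

open Fermat.Agent.LT.T6 Fermat.Agent.LT.T6.H847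

variable {k : Type} [Field k] [Valued k Γ₀]

/-- The matrix identity, modulo the three relations. -/
theorem mat_identity952 (τ ν a b ξ ξ' ξ'' B' C : k) (n : ℕ)
    (h1 : (a - ν * b * ξ) * ξ'' = a * ξ + b + τ * b * ξ)
    (h2 : B' * (1 + τ * ξ' + ν * ξ' ^ 2) = ξ'' - ξ') (h3 : C * ν ^ n = B') :
    embMat τ ν a b * latMat τ ν n ξ = latMat τ ν n ξ' *
      !![(a - ν * b * ξ) * (1 + ν * ξ' * B'), -((a - ν * b * ξ) * ν ^ (n + 1) * B');
        (a - ν * b * ξ) * C, (a - ν * b * ξ) * ((1 + ν * ξ' * B') + τ * B')] := by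
  ext i j
  fin_cases i <;> fin_cases j
  · simp only [embMat, latMat, Matrix.mul_apply, Fin.sum_univ_two, Matrix.of_apply,
      Matrix.cons_val', Matrix.cons_val_zero, Matrix.cons_val_one, Fin.zero_eta, Fin.mk_one,
      Matrix.cons_val_fin_one]
    linear_combination ((a - ν * b * ξ) * ν * ξ') * h3
  · simp only [embMat, latMat, Matrix.mul_apply, Fin.sum_univ_two, Matrix.of_apply,
      Matrix.cons_val', Matrix.cons_val_zero, Matrix.cons_val_one, Fin.zero_eta, Fin.mk_one,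
      Matrix.cons_val_fin_one]
    linear_combination (ν ^ (n + 1) * (a - ν * b * ξ)) * h2 + ν ^ (n + 1) * h1
  · simp only [embMat, latMat, Matrix.mul_apply, Fin.sum_univ_two, Matrix.of_apply,
      Matrix.cons_val', Matrix.cons_val_zero, Matrix.cons_val_one, Fin.zero_eta, Fin.mk_one,
      Matrix.cons_val_fin_one]
    linear_combination (-1 : k) * h1 - (a - ν * b * ξ) * h2 -
      (a - ν * b * ξ) * (1 + τ * ξ') * h3
  · simp only [embMat, latMat, Matrix.mul_apply, Fin.sum_univ_two, Matrix.of_apply,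
      Matrix.cons_val', Matrix.cons_val_zero, Matrix.cons_val_one, Fin.zero_eta, Fin.mk_one,
      Matrix.cons_val_fin_one]
    linear_combination (-(ν ^ n * τ)) * h1 - (ν ^ n * τ * (a - ν * b * ξ)) * h2

theorem val_one_add952 {x : k} (hx : Valued.v x < 1) : Valued.v (1 + x) = 1 := by
  have h := Valuation.map_add_eq_of_lt_left (v := (Valued.v : Valuation k Γ₀)) (x := 1) (y := x)
    (by rw [map_one]; exact hx)
  rw [h, map_one]

theorem val_unit_add952 {x y : k} (hx : Valued.v x = 1) (hy : Valued.v y < 1) :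
    Valued.v (x + y) = 1 := by
  have h := Valuation.map_add_eq_of_lt_left (v := (Valued.v : Valuation k Γ₀)) (x := x) (y := y)
    (by rw [hx]; exact hy)
  rw [h, hx]

theorem val_unit_sub952 {x y : k} (hx : Valued.v x = 1) (hy : Valued.v y < 1) :
    Valued.v (x - y) = 1 := by
  rw [sub_eq_add_neg]
  exact val_unit_add952 hx (by rw [Valuation.map_neg]; exact hy)

theorem val_nu_pow952 {ν : k} (hν : Valued.v ν = WithZero.exp (-1 : ℤ)) (n : ℕ) :
    Valued.v (ν ^ n) = WithZero.exp (-(n : ℤ)) := by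
  rw [map_pow, hν, ← WithZero.exp_nsmul]
  simp

theorem val_nu_lt952 {ν : k} (hν : Valued.v ν = WithZero.exp (-1 : ℤ)) : Valued.v ν < 1 := by
  rw [hν, ← WithZero.exp_zero]
  exact WithZero.exp_lt_exp.mpr (by norm_num)

theorem val_nu_pow_le952 {ν : k} (hν : Valued.v ν = WithZero.exp (-1 : ℤ)) (n : ℕ) :
    Valued.v (ν ^ n) ≤ 1 := by
  rw [val_nu_pow952 hν, ← WithZero.exp_zero]
  exact WithZero.exp_le_exp.mpr (by omega)

/-- The norm form at an integral point is a unit. -/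
theorem val_norm952 {τ ν ξ : k} (hν : Valued.v ν = WithZero.exp (-1 : ℤ)) (hτ : Valued.v τ < 1)
    (hξ : Valued.v ξ ≤ 1) : Valued.v (1 + τ * ξ + ν * ξ ^ 2) = 1 := by
  have h1 : Valued.v (τ * ξ) < 1 := by
    rw [map_mul]
    exact mul_lt_one_of_lt_of_le hτ hξ
  have h2 : Valued.v (ν * ξ ^ 2) < 1 := by
    rw [map_mul, map_pow]
    exact mul_lt_one_of_lt_of_le (val_nu_lt952 hν) (pow_le_one₀ zero_le hξ)
  exact val_unit_add952 (val_one_add952 h1) h2

theorem latMat_det952 (τ ν : k) (n : ℕ) (ξ : k) :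
    (latMat τ ν n ξ).det = ν ^ n * (1 + τ * ξ + ν * ξ ^ 2) := by
  rw [latMat, Matrix.det_fin_two_of]
  ring

theorem latGL_coe952 {τ ν : k} (hν : Valued.v ν = WithZero.exp (-1 : ℤ)) (hτ : Valued.v τ < 1)
    (n : ℕ) {ξ : k} (hξ : Valued.v ξ ≤ 1) :
    ((latGL τ ν n ξ : GL (Fin 2) k) : Matrix (Fin 2) (Fin 2) k) = latMat τ ν n ξ := by
  have hν0 : ν ≠ 0 := by
    intro h0
    rw [h0, map_zero] at hν
    exact WithZero.exp_ne_zero hν.symm
  have hN : (1 + τ * ξ + ν * ξ ^ 2) ≠ 0 := by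
    intro h0
    have := val_norm952 hν hτ hξ
    rw [h0, map_zero] at this
    exact zero_ne_one this
  have hdet : (latMat τ ν n ξ).det ≠ 0 := by
    rw [latMat_det952]
    exact mul_ne_zero (pow_ne_zero _ hν0) hN
  unfold latGL
  rw [dif_pos hdet]
  rfl

/-- An element of `GL₂(k)` with integral entries and unit determinant lies in `U(0)`. -/
theorem inU_zero_of952 (u : GL (Fin 2) k)
    (hent : ∀ i j, Valued.v ((u : Matrix (Fin 2) (Fin 2) k) i j) ≤ 1)
    (hdet : Valued.v ((u : Matrix (Fin 2) (Fin 2) k).det) = 1) : InU 0 u := by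
  have hone : ∀ i j : Fin 2, Valued.v ((1 : Matrix (Fin 2) (Fin 2) k) i j) ≤ 1 := by
    intro i j
    rw [Matrix.one_apply]
    split_ifs
    · rw [map_one]
    · rw [map_zero]; exact zero_le
  have hexp : WithZero.exp (-((0 : ℕ) : ℤ)) = (1 : Γ₀) := by simp
  have hinv : ∀ i j, Valued.v (((u⁻¹ : GL (Fin 2) k) : Matrix (Fin 2) (Fin 2) k) i j) ≤ 1 := by
    intro i j
    rw [Matrix.coe_units_inv, Matrix.inv_def, Matrix.adjugate_fin_two, Ring.inverse_eq_inv',
      Matrix.smul_apply, smul_eq_mul, map_mul, map_inv₀, hdet, inv_one, one_mul]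
    fin_cases i <;> fin_cases j
    · simpa using hent 1 1
    · simpa using hent 0 1
    · simpa using hent 1 0
    · simpa using hent 0 0
  intro i j
  rw [hexp]
  exact ⟨Valuation.map_sub_le _ (hent i j) (hone i j),
    Valuation.map_sub_le _ (hinv i j) (hone i j)⟩

/-- **Leaf T6.14b.L3** (registry row 1166). -/
theorem latOrbitExC952 : Fermat.Agent.LT.H129.LatOrbitExC129 := by
  intro k _ _ τ ν hν hτ n B hB ξ a b t hξ ha hb ht
  have hνlt : Valued.v ν < 1 := val_nu_lt952 hν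
  have hν0 : ν ≠ 0 := by
    intro h0
    rw [h0, map_zero] at hν
    exact WithZero.exp_ne_zero hν.symm
  -- `a₁` and `b₁`
  have hνbξ : Valued.v (ν * b * ξ) < 1 := by
    rw [map_mul, map_mul]
    exact mul_lt_one_of_lt_of_le (mul_lt_one_of_lt_of_le hνlt hb) hξ
  have ha₁ : Valued.v (a - ν * b * ξ) = 1 := val_unit_sub952 ha hνbξ
  have ha₁0 : a - ν * b * ξ ≠ 0 := by
    intro h0
    rw [h0, map_zero] at ha₁
    exact zero_ne_one ha₁
  have hb₁ : Valued.v (a * ξ + b + τ * b * ξ) ≤ 1 := by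
    refine Valuation.map_add_le _ (Valuation.map_add_le _ ?_ hb) ?_
    · rw [map_mul, ha, one_mul]; exact hξ
    · rw [map_mul, map_mul]
      exact Left.mul_le_one (Left.mul_le_one hτ.le hb) hξ
  -- `ξ''` and `ξ'`
  have hξ'' : Valued.v ((a * ξ + b + τ * b * ξ) / (a - ν * b * ξ)) ≤ 1 := by
    rw [map_div₀, ha₁, div_one]
    exact hb₁
  obtain ⟨ξ', ⟨hξ'B, hclose⟩, -⟩ := hB.2 _ hξ''
  have hξ' : Valued.v ξ' ≤ 1 := hB.1 ξ' hξ'B
  have hN' : Valued.v (1 + τ * ξ' + ν * ξ' ^ 2) = 1 := val_norm952 hν hτ hξ'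
  have hN'0 : (1 + τ * ξ' + ν * ξ' ^ 2) ≠ 0 := by
    intro h0
    rw [h0, map_zero] at hN'
    exact zero_ne_one hN'
  -- `B'`, `C`, `A`
  obtain ⟨ξ'', hξ''def⟩ : ∃ ξ'' : k, ξ'' = (a * ξ + b + τ * b * ξ) / (a - ν * b * ξ) := ⟨_, rfl⟩
  rw [← hξ''def] at hclose
  obtain ⟨B', hB'def⟩ : ∃ B' : k, B' = (ξ'' - ξ') / (1 + τ * ξ' + ν * ξ' ^ 2) := ⟨_, rfl⟩
  obtain ⟨C, hCdef⟩ : ∃ C : k, C = B' / ν ^ n := ⟨_, rfl⟩
  have h1 : (a - ν * b * ξ) * ξ'' = a * ξ + b + τ * b * ξ := by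
    rw [hξ''def, mul_div_cancel₀ _ ha₁0]
  have h2 : B' * (1 + τ * ξ' + ν * ξ' ^ 2) = ξ'' - ξ' := by
    rw [hB'def, div_mul_cancel₀ _ hN'0]
  have h3 : C * ν ^ n = B' := by
    rw [hCdef, div_mul_cancel₀ _ (pow_ne_zero _ hν0)]
  have hB'v : Valued.v B' ≤ WithZero.exp (-(n : ℤ)) := by
    rw [hB'def, map_div₀, hN', div_one]
    exact hclose
  have hB'1 : Valued.v B' ≤ 1 := by
    refine hB'v.trans ?_
    rw [← WithZero.exp_zero]
    exact WithZero.exp_le_exp.mpr (by omega)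
  have hCv : Valued.v C ≤ 1 := by
    rw [hCdef, map_div₀, val_nu_pow952 hν]
    exact (div_le_one₀ WithZero.exp_pos).mpr hB'v
  have hνξB : Valued.v (ν * ξ' * B') < 1 := by
    rw [map_mul, map_mul]
    exact mul_lt_one_of_lt_of_le (mul_lt_one_of_lt_of_le hνlt hξ') hB'1
  have hA : Valued.v (1 + ν * ξ' * B') = 1 := val_one_add952 hνξB
  have hτB : Valued.v (τ * B') < 1 := by
    rw [map_mul]
    exact mul_lt_one_of_lt_of_le hτ hB'1
  have hAτ : Valued.v ((1 + ν * ξ' * B') + τ * B') = 1 := val_unit_add952 hA hτB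
  -- the matrix `U`
  obtain ⟨U, hUdef⟩ : ∃ U : Matrix (Fin 2) (Fin 2) k, U =
      !![(a - ν * b * ξ) * (1 + ν * ξ' * B'), -((a - ν * b * ξ) * ν ^ (n + 1) * B');
        (a - ν * b * ξ) * C, (a - ν * b * ξ) * ((1 + ν * ξ' * B') + τ * B')] := ⟨_, rfl⟩
  have hUdet : U.det = (a - ν * b * ξ) ^ 2 *
      ((1 + ν * ξ' * B') * ((1 + ν * ξ' * B') + τ * B') + ν ^ (n + 1) * B' * C) := by
    rw [hUdef, Matrix.det_fin_two_of]
    ring
  have hUdetv : Valued.v U.det = 1 := by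
    rw [hUdet, map_mul, map_pow, ha₁, one_pow, one_mul]
    refine val_unit_add952 (by rw [map_mul, hA, hAτ, one_mul]) ?_
    rw [map_mul, map_mul, pow_succ, map_mul]
    exact mul_lt_one_of_lt_of_le (mul_lt_one_of_lt_of_le
      (by rw [mul_comm]; exact mul_lt_one_of_lt_of_le hνlt (val_nu_pow_le952 hν n)) hB'1) hCv
  have hUdet0 : U.det ≠ 0 := by
    intro h0
    rw [h0, map_zero] at hUdetv
    exact zero_ne_one hUdetv
  have hUent : ∀ i j, Valued.v (U i j) ≤ 1 := by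
    intro i j
    rw [hUdef]
    fin_cases i <;> fin_cases j
    · show Valued.v ((a - ν * b * ξ) * (1 + ν * ξ' * B')) ≤ 1
      rw [map_mul, ha₁, hA, one_mul]
    · show Valued.v (-((a - ν * b * ξ) * ν ^ (n + 1) * B')) ≤ 1
      rw [Valuation.map_neg, map_mul, map_mul, ha₁, one_mul]
      exact Left.mul_le_one (val_nu_pow_le952 hν _) hB'1
    · show Valued.v ((a - ν * b * ξ) * C) ≤ 1
      rw [map_mul, ha₁, one_mul]
      exact hCv
    · show Valued.v ((a - ν * b * ξ) * ((1 + ν * ξ' * B') + τ * B')) ≤ 1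
      rw [map_mul, ha₁, hAτ, one_mul]
  -- conclusion
  refine ⟨ξ', hξ'B, Matrix.GeneralLinearGroup.mkOfDetNeZero U hUdet0, ?_, ?_⟩
  · exact inU_zero_of952 _ hUent hUdetv
  · apply Units.ext
    rw [Units.val_mul, Units.val_mul, ht, latGL_coe952 hν hτ n hξ, latGL_coe952 hν hτ n hξ']
    show embMat τ ν a b * latMat τ ν n ξ = latMat τ ν n ξ' * U
    rw [hUdef]
    exact mat_identity952 τ ν a b ξ ξ' ξ'' B' C n h1 h2 h3

end Fermat.Agent.LT.T6.H952

end
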